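/-
S55 / F-abs / EPS-3 : `T³(μ) ≠ 0` (from N2) and `dim T³(X_U) ≥ 1` (`X_U ->> μ`, `P²` right exact).
-/
import Fermat.Agent.S55.F.T3

set_option autoImplicit false

namespace Fermat.Agent.S55.F

open Representation Module

noncomputable section

namespace Datum

variable {p : ℕ} [Fact p.Prime] {A : Datum p}

/-- the inclusion of the `v`-th local factor into `T³(μ)` is injective -/
theorem Numbers.single_mk_ne_zero (hN : A.Numbers) [DecidableEq A.ι] (v : A.ι)
    (x : (A.CD v).H2 (res (A.r v) (mu A.ω))) (hx : x ≠ 0) :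
    (Submodule.Quotient.mk (Pi.single v x) : A.T3 (mu A.ω)) ≠ 0 := by
  intro h
  rw [Submodule.Quotient.mk_eq_zero] at h
  obtain ⟨y, hy⟩ := h
  apply hx
  have h1 : (A.loc v).loc2 (mu A.ω) y = x := by
    have := congrFun hy v
    simpa using this
  rw [← h1]
  apply hN.n2 y v
  intro w hw
  have := congrFun hy w
  simpa [Pi.single_eq_of_ne hw] using this

theorem Numbers.nontrivial_T3_mu (hN : A.Numbers) : Nontrivial (A.T3 (mu A.ω)) := by
  classical
  obtain ⟨v⟩ := hN.ne
  have hnt : Nontrivial ((A.CD v).H2 (res (A.r v) (mu A.ω))) := (hN.loc v).h2mu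
  obtain ⟨x, hx⟩ := exists_ne (0 : (A.CD v).H2 (res (A.r v) (mu A.ω)))
  exact ⟨⟨_, 0, hN.single_mk_ne_zero v x hx⟩⟩

theorem Numbers.T3map_surjective_of_surjective (hN : A.Numbers)
    {P M : Type} [AddCommGroup P] [Module (ZMod p) P] [AddCommGroup M] [Module (ZMod p) M]
    [Module.Finite (ZMod p) P] {ρP : Representation (ZMod p) A.G P}
    {ρM : Representation (ZMod p) A.G M} (f : ρP.IntertwiningMap ρM)
    (hf : Function.Surjective f) (hP : A.CG.IsOpen ρP.ker) :
    Function.Surjective (A.T3map f) := by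
  intro z
  obtain ⟨z', rfl⟩ := Submodule.Quotient.mk_surjective _ z
  obtain ⟨y, rfl⟩ := hN.P2map_surjective (kerSES f hf) hP z'
  exact ⟨Submodule.Quotient.mk y, rfl⟩

theorem Numbers.exists_T3map_surjective (hN : A.Numbers) {U : Subgroup A.G} (hU : A.CG.IsOpen U)
    (hUω : U ≤ A.ω.ker) :
    ∃ f : (X (ZMod p) U).IntertwiningMap (mu A.ω), Function.Surjective (A.T3map f) := by
  have : U.FiniteIndex := A.CG.finiteIndex hU
  refine ⟨(counit U (mu A.ω)).comp (coindResMuEquivX A.ω U hUω).symm.toIntertwiningMap,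
    hN.T3map_surjective_of_surjective _ ?_ (isOpen_ker_X A.CG hU)⟩
  intro n
  obtain ⟨y, rfl⟩ := counit_surjective U (mu A.ω) n
  exact ⟨coindResMuEquivX A.ω U hUω y, by simp [IntertwiningMap.comp_apply]⟩

theorem Numbers.one_le_finrank_T3_X (hN : A.Numbers) {U : Subgroup A.G} (hU : A.CG.IsOpen U)
    (hUω : U ≤ A.ω.ker) : 1 ≤ finrank (ZMod p) (A.T3 (X (ZMod p) U)) := by
  have : U.FiniteIndex := A.CG.finiteIndex hU
  obtain ⟨f, hf⟩ := hN.exists_T3map_surjective hU hUω
  have hfin : Module.Finite (ZMod p) (A.P2 (X (ZMod p) U)) :=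
    hN.finite_P2 _ (isOpen_ker_X A.CG hU)
  have hnt := hN.nontrivial_T3_mu
  have hfin' : Module.Finite (ZMod p) (A.T3 (mu A.ω)) := Module.Finite.of_surjective _ hf
  have h1 : 0 < finrank (ZMod p) (A.T3 (mu A.ω)) := finrank_pos
  have h2 := LinearMap.finrank_le_finrank_of_surjective hf
  omega

end Datum

end

end Fermat.Agent.S55.F
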