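/-
S55 / F-abs / EPS-1 : `dim P²(X_U) = s(U)` (local duality + `X_U' ≅ X_U`).
-/
import Fermat.Agent.S55.F.T3

set_option autoImplicit false

namespace Fermat.Agent.S55.F

open Representation Module

noncomputable section

/-- an isomorphism of `Γ`-representations induces an isomorphism on `D`-invariants -/
def p2xResInv {k : Type} [Field k] {Γ D : Type} [Group Γ] [Group D] (r : D →* Γ)
    {V W : Type} [AddCommGroup V] [Module k V] [AddCommGroup W] [Module k W]
    {ρ : Representation k Γ V} {σ : Representation k Γ W} (e : ρ.Equiv σ) :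
    (res r ρ).invariants ≃ₗ[k] (res r σ).invariants :=
  LinearEquiv.ofLinearMap (invMap (resMap r e.toIntertwiningMap))
    (invMap (resMap r e.symm.toIntertwiningMap))
    (by
      ext x
      exact e.apply_symm_apply (x : W))
    (by
      ext x
      exact e.symm_apply_apply (x : V))

namespace Datum

variable {p : ℕ} [Fact p.Prime] {A : Datum p}

theorem Numbers.finrank_P2_X (hN : A.Numbers) {U : Subgroup A.G} (hU : A.CG.IsOpen U)
    (hUω : U ≤ A.ω.ker) : finrank (ZMod p) (A.P2 (X (ZMod p) U)) = A.s U := by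
  have hfi : U.FiniteIndex := A.CG.finiteIndex hU
  have hopen : ∀ v, (A.CD v).IsOpen (res (A.r v) (X (ZMod p) U)).ker := fun v =>
    A.isOpen_ker_res _ (isOpen_ker_X A.CG hU) v
  have hfin : ∀ v, Module.Finite (ZMod p) ((A.CD v).H2 (res (A.r v) (X (ZMod p) U))) := fun v =>
    ((hN.loc v).finCoh _ (hopen v)).2
  rw [Module.finrank_pi_fintype]
  unfold s
  refine Finset.sum_congr rfl fun v _ => ?_
  rw [(hN.loc v).finrank_H2 _ (hopen v)]
  rw [← (p2xResInv (A.r v) (dtX A.ω U hUω)).finrank_eq]
  exact (invDtRes A.ω (A.r v) (X (ZMod p) U)).finrank_eq.symm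

end Datum

end

end Fermat.Agent.S55.F
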