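/-
S55 / F-abs / EPS-2 : `2 χ(X_U) + [G:U] + 2 dim T³(X_U) = 2`.
-/
import Fermat.Agent.S55.F.Eps.P2X

set_option autoImplicit false

namespace Fermat.Agent.S55.F

open Representation Module

noncomputable section

namespace Datum

variable {p : ℕ} [Fact p.Prime] {A : Datum p}

theorem Numbers.finite_P2_X (hN : A.Numbers) {U : Subgroup A.G} (hU : A.CG.IsOpen U) :
    Module.Finite (ZMod p) (A.P2 (X (ZMod p) U)) := by
  have : U.FiniteIndex := A.CG.finiteIndex hU
  exact hN.finite_P2 (X (ZMod p) U) (isOpen_ker_X A.CG hU)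

theorem Numbers.finCoh_X (hN : A.Numbers) {U : Subgroup A.G} (hU : A.CG.IsOpen U)
    (hUω : U ≤ A.ω.ker) : A.CG.FinCoh (X (ZMod p) U) := by
  refine ⟨hN.n1_fin1 U hU hUω, ?_⟩
  have h1 : Module.Finite (ZMod p) (LinearMap.ker (A.locTot2 (X (ZMod p) U))) :=
    hN.n1_fin2 U hU hUω
  have h2 : Module.Finite (ZMod p) (A.P2 (X (ZMod p) U)) := hN.finite_P2_X hU
  have h3 : Module.Finite (ZMod p) (LinearMap.range (A.locTot2 (X (ZMod p) U))) := inferInstance
  have h4 : Module.Finite (ZMod p)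
      (A.CG.H2 (X (ZMod p) U) ⧸ LinearMap.ker (A.locTot2 (X (ZMod p) U))) :=
    Module.Finite.equiv (A.locTot2 (X (ZMod p) U)).quotKerEquivRange.symm
  exact Module.Finite.of_submodule_quotient (LinearMap.ker (A.locTot2 (X (ZMod p) U)))

theorem Numbers.two_chi_X (hN : A.Numbers) {U : Subgroup A.G} (hU : A.CG.IsOpen U)
    (hUω : U ≤ A.ω.ker) :
    2 * A.CG.chi (X (ZMod p) U) + U.index + 2 * finrank (ZMod p) (A.T3 (X (ZMod p) U)) = 2 := by
  have hf2 : Module.Finite (ZMod p) (A.CG.H2 (X (ZMod p) U)) := (hN.finCoh_X hU hUω).2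
  have hP2 : Module.Finite (ZMod p) (A.P2 (X (ZMod p) U)) := hN.finite_P2_X hU
  have h1 : finrank (ZMod p) (LinearMap.range (A.locTot2 (X (ZMod p) U))) +
      finrank (ZMod p) (A.sha2 (X (ZMod p) U)) = finrank (ZMod p) (A.CG.H2 (X (ZMod p) U)) :=
    LinearMap.finrank_range_add_finrank_ker (A.locTot2 (X (ZMod p) U))
  have h2 : finrank (ZMod p) (A.T3 (X (ZMod p) U)) +
      finrank (ZMod p) (LinearMap.range (A.locTot2 (X (ZMod p) U))) =
        finrank (ZMod p) (A.P2 (X (ZMod p) U)) :=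
    Submodule.finrank_quotient_add_finrank (LinearMap.range (A.locTot2 (X (ZMod p) U)))
  have h3 := hN.finrank_P2_X hU hUω
  have h4 := hN.n1 U hU hUω
  rw [CohTheory.chi, finrank_invariants_X]
  generalize finrank (ZMod p) (A.T3 (X (ZMod p) U)) = t at *
  generalize finrank (ZMod p) (LinearMap.range (A.locTot2 (X (ZMod p) U))) = r at *
  generalize finrank (ZMod p) (A.P2 (X (ZMod p) U)) = P at *
  generalize finrank (ZMod p) (A.sha2 (X (ZMod p) U)) = sh at *
  generalize finrank (ZMod p) (A.CG.H2 (X (ZMod p) U)) = h₂ at *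
  generalize finrank (ZMod p) (A.CG.H1 (X (ZMod p) U)) = h₁ at *
  push_cast
  omega

end Datum

end

end Fermat.Agent.S55.F
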