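/-
S55 / F-abs / EPS-4 : `χ(X_{U'}) ≤ p χ(X_U)` for `U'` normal of index `p` in `U`.
-/
import Fermat.Agent.S55.F.Eps.ChiX
import Fermat.Agent.S55.F.SW.Upper
import Fermat.Agent.S55.F.RT.Trans

set_option autoImplicit false

namespace Fermat.Agent.S55.F

open Representation Module

noncomputable section

namespace Datum

variable {p : ℕ} [Fact p.Prime] {A : Datum p}

theorem Numbers.chi_X_le (hN : A.Numbers) {U U' : Subgroup A.G} (hU' : A.CG.IsOpen U')
    (hle : U' ≤ U) (hUω : U ≤ A.ω.ker) (hn : (U'.subgroupOf U).Normal) (hp : U'.relIndex U = p) :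
    A.CG.chi (X (ZMod p) U') ≤ p * A.CG.chi (X (ZMod p) U) := by
  have hU : A.CG.IsOpen U := A.CG.isOpen_mono hle hU'
  have hfi' : U'.FiniteIndex := A.CG.finiteIndex hU'
  have hfi : (U'.subgroupOf U).FiniteIndex := inferInstance
  have hidx : (U'.subgroupOf U).index = p := hp
  have hker : U'.subgroupOf U ≤ (X (ZMod p) (U'.subgroupOf U)).ker := subgroupOf_le_ker_X U U'
  obtain ⟨-, h2⟩ := SW.upper A.CG hU (hN.finCoh_X hU hUω) (X (ZMod p) (U'.subgroupOf U))
    (isOpen_map_ker_of_le A.CG hle hU' _ hker)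
    (isPGroup_quot_of_le hker (isPGroup_of_index_eq _ hidx))
  rw [finrank_coindV, hidx, finrank_self, mul_one,
    A.CG.chi_of_equiv (coindTransX U U' hle)] at h2
  exact h2

end Datum

end

end Fermat.Agent.S55.F
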