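/-
S55 / F-abs / EPS-5 : the tower argument: `dim T³(X_U) = 1`, hence `2 χ(X_U) = -[G:U]`, hence
(sandwich) the global `H²` is right exact and all global cohomology is finite.
-/
import Fermat.Agent.S55.F.Eps.Step
import Fermat.Agent.S55.F.Eps.Lower
import Fermat.Agent.S55.F.SW.Main

set_option autoImplicit false

namespace Fermat.Agent.S55.F

open Representation Module

noncomputable section

namespace Datum

variable {p : ℕ} [Fact p.Prime] {A : Datum p}

/-- one step of the tower: `1 - t(U') ≤ p (1 - t(U))`. -/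
theorem Numbers.eps_step (hN : A.Numbers) {U U' : Subgroup A.G} (hU' : A.CG.IsOpen U')
    (hle : U' ≤ U) (hUω : U ≤ A.ω.ker) (hn : (U'.subgroupOf U).Normal) (hp : U'.relIndex U = p) :
    (1 : ℤ) - finrank (ZMod p) (A.T3 (X (ZMod p) U')) ≤
      p * (1 - finrank (ZMod p) (A.T3 (X (ZMod p) U))) := by
  have hU : A.CG.IsOpen U := A.CG.isOpen_mono hle hU'
  have h1 := hN.chi_X_le hU' hle hUω hn hp
  have h2 := hN.two_chi_X hU hUω
  have h3 := hN.two_chi_X hU' (hle.trans hUω)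
  have h4 : (U'.index : ℤ) = p * U.index := by
    rw [← Subgroup.relIndex_mul_index hle, hp]
    push_cast
    ring
  rw [h4] at h3
  have h5 : (p : ℤ) * (2 * A.CG.chi (X (ZMod p) U) + U.index +
      2 * finrank (ZMod p) (A.T3 (X (ZMod p) U))) = p * 2 := by rw [h2]
  linarith

/-- `t(U) ≤ s(U)`. -/
theorem Numbers.finrank_T3_X_le (hN : A.Numbers) {U : Subgroup A.G} (hU : A.CG.IsOpen U)
    (hUω : U ≤ A.ω.ker) : finrank (ZMod p) (A.T3 (X (ZMod p) U)) ≤ A.s U := by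
  have hfi : U.FiniteIndex := A.CG.finiteIndex hU
  have := hN.finite_P2 (X (ZMod p) U) (isOpen_ker_X A.CG hU)
  rw [← hN.finrank_P2_X hU hUω]
  exact Submodule.finrank_quotient_le _

theorem Numbers.finrank_T3_X (hN : A.Numbers) {U : Subgroup A.G} (hU : A.CG.IsOpen U)
    (hUω : U ≤ A.ω.ker) : finrank (ZMod p) (A.T3 (X (ZMod p) U)) = 1 := by
  obtain ⟨n, c, hc0, hc, hs⟩ := hN.n3 U hU hUω
  have hopen : ∀ i, A.CG.IsOpen (c i) ∧ c i ≤ A.ω.ker := by
    intro i
    induction i with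
    | zero => rw [hc0]; exact ⟨hU, hUω⟩
    | succ i ih => exact ⟨(hc i).2.1, (hc i).1.trans ih.2⟩
  have hchain : ∀ i, (1 : ℤ) - finrank (ZMod p) (A.T3 (X (ZMod p) (c i))) ≤
      (p : ℤ) ^ i * (1 - finrank (ZMod p) (A.T3 (X (ZMod p) U))) := by
    intro i
    induction i with
    | zero => rw [hc0]; simp
    | succ i ih =>
      have h1 := hN.eps_step (hc i).2.1 (hc i).1 (hopen i).2 (hc i).2.2.1 (hc i).2.2.2
      have hp0 : (0 : ℤ) ≤ p := Int.natCast_nonneg p
      calc (1 : ℤ) - finrank (ZMod p) (A.T3 (X (ZMod p) (c (i + 1))))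
          ≤ p * (1 - finrank (ZMod p) (A.T3 (X (ZMod p) (c i)))) := h1
        _ ≤ p * ((p : ℤ) ^ i * (1 - finrank (ZMod p) (A.T3 (X (ZMod p) U)))) :=
            mul_le_mul_of_nonneg_left ih hp0
        _ = (p : ℤ) ^ (i + 1) * (1 - finrank (ZMod p) (A.T3 (X (ZMod p) U))) := by ring
  have h1 := hN.one_le_finrank_T3_X hU hUω
  have h2 := hN.finrank_T3_X_le (hopen n).1 (hopen n).2
  have h3 := hchain n
  by_contra hne
  have h4 : 2 ≤ finrank (ZMod p) (A.T3 (X (ZMod p) U)) := by omega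
  have h5 : ((finrank (ZMod p) (A.T3 (X (ZMod p) (c n))) : ℕ) : ℤ) ≤ (p : ℤ) ^ n := by
    exact_mod_cast h2.trans hs
  have h6 : (1 : ℤ) - finrank (ZMod p) (A.T3 (X (ZMod p) U)) ≤ -1 := by
    have : (2 : ℤ) ≤ finrank (ZMod p) (A.T3 (X (ZMod p) U)) := by exact_mod_cast h4
    linarith
  have h7 : (0 : ℤ) ≤ (p : ℤ) ^ n := by positivity
  have h8 : (p : ℤ) ^ n * (1 - finrank (ZMod p) (A.T3 (X (ZMod p) U))) ≤ (p : ℤ) ^ n * (-1) :=
    mul_le_mul_of_nonneg_left h6 h7
  linarith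

/-- `2 χ(X_U) = - [G : U]`. -/
theorem Numbers.two_chi_X_eq (hN : A.Numbers) {U : Subgroup A.G} (hU : A.CG.IsOpen U)
    (hUω : U ≤ A.ω.ker) : 2 * A.CG.chi (X (ZMod p) U) = - (U.index : ℤ) := by
  have h := hN.two_chi_X hU hUω
  rw [hN.finrank_T3_X hU hUω] at h
  push_cast at h
  linarith

theorem Numbers.mult (hN : A.Numbers) : Mult A.CG A.ω.ker where
  fin U hU hUω := hN.finCoh_X hU hUω
  mul U U' hU' hle hUω := by
    have hU : A.CG.IsOpen U := A.CG.isOpen_mono hle hU'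
    have h1 := hN.two_chi_X_eq hU hUω
    have h2 := hN.two_chi_X_eq hU' (hle.trans hUω)
    have h4 : (U'.index : ℤ) = U'.relIndex U * U.index := by
      rw [← Subgroup.relIndex_mul_index hle]
      push_cast
      ring
    rw [h4] at h2
    have h5 : (U'.relIndex U : ℤ) * (2 * A.CG.chi (X (ZMod p) U)) =
        (U'.relIndex U : ℤ) * (- (U.index : ℤ)) := by rw [h1]
    linarith

theorem Numbers.finCohG (hN : A.Numbers) : A.FinCohG := by
  intro V _ _ _ ρ hρ
  exact SW.finCoh A.CG A.ω_open (fun U hU hUω => hN.finCoh_X hU hUω) ρ hρ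

theorem Numbers.rightExact (hN : A.Numbers) : A.RightExact := by
  intro R P M _ _ _ _ _ _ _ ρR ρP ρM S hP
  exact SW.main A.CG A.ω_open (not_dvd_index_ker A.ω) hN.mult S hP

end Datum

end

end Fermat.Agent.S55.F
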